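import Fermat.Agent.S38.H681.GLevel
import Fermat.Agent.S59.MFree.H779.FreeKer
import Fermat.Agent.S59.TW.Aut.H31.LocBij
import Fermat.Agent.S59.TW.H653.Bridge587

/-!
# FREE for EVERY odd `p`, generic index type (helper681)

`h681_free_of_isLocPart_odd`: `N₀ ≠ 0`, `qq : ι → ℕ` a finite family of distinct primes
(`ι` ANY finite type: `Fin r`, `Fin k ⊕ Fin r`, …), `K = KG p N₀ qq = ker (Γ₀(M) → Δ)`,
`V` a localisation of `X_K(𝒪)` (`Aut.IsLocPart`, ANY `Tset`, `Uset`), a non-Eisenstein pair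
`(ℓ, c) ∈ Tset` (`ℓ ∤ M`, `c - (ℓ + 1)` a unit) and

* either `5 ≤ p`,
* or `p = 3` and an auxiliary pair `(r', c') ∈ Tset`, `r' ∤ M`, `r' ≡ 2 mod 3`, `c'` a unit.

Then `V` is free over `𝒪[Δ]`: there is `d` such that for every family `a : E → ∏ (ℤ/qq s)ˣ`
inducing a bijection `E → Δ`, `V` has an `𝒪`-basis `⟨a e⟩ b_i` (`i < d`, `e ∈ E`).

This is the generic-index form of `S59.TW.Aut.H779.free_of_isLocPart_h779` (which is stated for
`Fin r`-indexed families, `KQ`), and the all-odd-`p` form of the `5 ≤ p` cores used for the leaf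
IA-FREE of row HARD.  Proof: `MFree.H779.freeFive_heckeKer_h779` / `freeAux3_heckeKer_h779`
(both on main, general `κ`) at `κ = gKappa`, `e` = the projector of `V`, `t = T_ℓ`.
-/

set_option autoImplicit false

open Polynomial IsLocalRing CongruenceSubgroup
open scoped MatrixGroups

namespace Fermat.Agent.S38.H681

open Fermat.Agent.S59.TW.H653 Fermat.Agent.S59.TW.Aut Fermat.Agent.S59.MFree
open Fermat.Agent.S38.IA.Hecke

section Dia

variable (p N₀ : ℕ) {ι : Type} [Fintype ι] (qq : ι → ℕ) {A : Type} [AddCommGroup A]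

/-- The diamond operator of an element of `ker (gChi)` is trivial on `X_K`. -/
theorem h681_diamondU_of_gChi [NeZero (gLevel N₀ qq)] {u : (ZMod (gLevel N₀ qq))ˣ}
    (hu : gChi p N₀ qq u = 1) (x : Additive (KG p N₀ qq) →+ A) :
    diamondU (isMid_KG p N₀ qq) u x = x := by
  have h := diamondHom_GammaH (A := A) (M := gLevel N₀ qq) (H := (gChi p N₀ qq).ker)
    (u := u) (MonoidHom.mem_ker.mpr hu)
  have h2 := congrArg (fun f : AddMonoid.End (Additive (GammaH (gLevel N₀ qq)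
    (gChi p N₀ qq).ker) →+ A) => f x) h
  exact h2

/-- The diamond operator of `KG` depends only on the class in `Δ`. -/
theorem h681_diamondU_eq_of_gChi [NeZero (gLevel N₀ qq)] {u u' : (ZMod (gLevel N₀ qq))ˣ}
    (hu : gChi p N₀ qq u = gChi p N₀ qq u') (x : Additive (KG p N₀ qq) →+ A) :
    diamondU (isMid_KG p N₀ qq) u x = diamondU (isMid_KG p N₀ qq) u' x := by
  have h1 : u = u' * (u'⁻¹ * u) := by group
  have h2 : gChi p N₀ qq (u'⁻¹ * u) = 1 := by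
    rw [map_mul, map_inv, hu, inv_mul_cancel]
  rw [h1, diamondU_mul, h681_diamondU_of_gChi p N₀ qq h2]

/-- The diamond operator `⟨a⟩` of `KG` in the vocabulary of block M-FREE. -/
theorem h681_diamondU_gLift_eq_conjAct [NeZero (gLevel N₀ qq)]
    (hsurj : Function.Surjective (gRed N₀ qq))
    (a : ∀ s : ι, (ZMod (qq s))ˣ) (γ : Gamma0 (gLevel N₀ qq))
    (hγ : gKappa p N₀ qq γ = (QuotientGroup.mk a)⁻¹)
    (x : Additive (kerSub (gKappa p N₀ qq)) →+ A) :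
    diamondU (isMid_KG p N₀ qq) (gLift N₀ qq a) x = conjAct (gKappa p N₀ qq) γ x := by
  rw [conjAct_eq_diamond (gKappa p N₀ qq) (h681_gKappa_of_d_eq_one p N₀ qq) γ x]
  rw [diamond_eq_diamondU]
  apply h681_diamondU_eq_of_gChi
  have h1 : gChi p N₀ qq (gLift N₀ qq a) = QuotientGroup.mk a := by
    rw [h681_gChi_apply, gRed_gLift N₀ qq (hsurj a)]
  have h2 : gChi p N₀ qq (dUnit (gLevel N₀ qq) γ⁻¹) = QuotientGroup.mk a := by
    rw [← h681_gKappa_apply, map_inv, hγ]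
    exact inv_inv (QuotientGroup.mk a : GDelta p qq)
  exact h1.trans h2.symm

end Dia

section LinAlg

variable {𝒪 : Type} [CommRing 𝒪] {X : Type} [AddCommGroup X] [Module 𝒪 X]
  {D E : Type} [Fintype E]

/-- Unique coefficients with respect to a linearly independent family indexed by `D × Fin n`,
re-indexed along a bijection `ε : E → D`. -/
theorem h681_existsUnique_coeff {n : ℕ} (F : D × Fin n → X)
    (hli : LinearIndependent 𝒪 F) (ε : E → D) (hε : Function.Bijective ε) (y : X)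
    (hy : y ∈ Submodule.span 𝒪 (Set.range F)) :
    ∃! c : Fin n → E → 𝒪, y = ∑ i, ∑ e, c i e • F (ε e, i) := by
  classical
  let φ : Fin n × E → D × Fin n := fun z => (ε z.2, z.1)
  have hφ : Function.Bijective φ := by
    constructor
    · rintro ⟨i, e⟩ ⟨i', e'⟩ h
      have h1 : ε e = ε e' := congrArg Prod.fst h
      have h2 : i = i' := congrArg Prod.snd h
      rw [hε.1 h1, h2]
    · rintro ⟨d, i⟩
      obtain ⟨e, rfl⟩ := hε.2 d
      exact ⟨(i, e), rfl⟩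
  have hG : LinearIndependent 𝒪 (F ∘ φ) := hli.comp φ hφ.1
  have hrange : Set.range (F ∘ φ) = Set.range F := by
    rw [Set.range_comp, hφ.2.range_eq, Set.image_univ]
  have hsum : ∀ c : Fin n → E → 𝒪,
      ∑ i, ∑ e, c i e • F (ε e, i) = ∑ z : Fin n × E, c z.1 z.2 • (F ∘ φ) z := by
    intro c
    rw [Fintype.sum_prod_type]
    rfl
  rw [← hrange] at hy
  obtain ⟨c₀, hc₀⟩ := (Submodule.mem_span_range_iff_exists_fun 𝒪).mp hy
  refine ⟨fun i e => c₀ (i, e), ?_, ?_⟩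
  · show y = ∑ i, ∑ e, c₀ (i, e) • F (ε e, i)
    rw [hsum (fun i e => c₀ (i, e)), ← hc₀]
  · intro c hc
    rw [hsum c, ← hc₀] at hc
    have hzero : ∑ z : Fin n × E, (c z.1 z.2 - c₀ z) • (F ∘ φ) z = 0 := by
      simp only [sub_smul, Finset.sum_sub_distrib]
      rw [← hc, sub_self]
    have := Fintype.linearIndependent_iff.mp hG (fun z => c z.1 z.2 - c₀ z) hzero
    funext i e
    exact sub_eq_zero.mp (this (i, e))

end LinAlg

section Generic

variable {p : ℕ} [hpF : Fact p.Prime] (N₀ : ℕ) {ι : Type} [Fintype ι] (qq : ι → ℕ)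
  {𝒪 : Type} [CommRing 𝒪] [IsDomain 𝒪] [IsDiscreteValuationRing 𝒪] [CharZero 𝒪]

/-- **FREE, generic index type, all odd `p`.** -/
theorem h681_free_of_isLocPart_odd (hN₀ : N₀ ≠ 0) (hinj : Function.Injective qq)
    (hprime : ∀ s, (qq s).Prime) (hp𝒪 : ¬ IsUnit (p : 𝒪))
    {Tset Uset : Set (ℕ × 𝒪)} {V : Submodule 𝒪 (Additive (KG p N₀ qq) →+ 𝒪)}
    (hV : IsLocPart (isMid_KG p N₀ qq) Tset Uset V)
    {ℓ : ℕ} (hℓ : ℓ.Prime) (hℓM : ¬ ℓ ∣ gLevel N₀ qq) {c : 𝒪} (hmem : (ℓ, c) ∈ Tset)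
    (hu : IsUnit (c - ((ℓ : 𝒪) + 1)))
    (hcase : 5 ≤ p ∨ (p = 3 ∧ ∃ (r' : ℕ) (c' : 𝒪), r'.Prime ∧ ¬ r' ∣ gLevel N₀ qq ∧
      r' % 3 = 2 ∧ (r', c') ∈ Tset ∧ IsUnit c')) :
    ∃ d : ℕ, ∀ (E : Type) [Fintype E] (a : E → ∀ s : ι, (ZMod (qq s))ˣ),
      Function.Bijective (fun e => (QuotientGroup.mk (a e) : GDelta p qq)) →
      ∃ b : Fin d → V, ∀ y : V, ∃! c : Fin d → E → 𝒪,
        (y : Additive (KG p N₀ qq) →+ 𝒪) =
          ∑ i, ∑ e, c i e • diamondU (isMid_KG p N₀ qq) (gLift N₀ qq (a e))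
            (b i : Additive (KG p N₀ qq) →+ 𝒪) := by
  classical
  have hM : NeZero (gLevel N₀ qq) := ⟨h681_gLevel_ne_zero N₀ qq hN₀ hprime⟩
  have : Fact ℓ.Prime := ⟨hℓ⟩
  have hred := h681_gRed_surjective N₀ qq hN₀ hinj hprime
  have hκ := h681_gKappa_surjective p N₀ qq hred
  letI : Fintype (GDelta p qq) := Fintype.ofFinite _
  have hcard : ∃ a : ℕ, Fintype.card (GDelta p qq) = p ^ a := by
    obtain ⟨a, ha⟩ := h681_card_gDelta p qq
    exact ⟨a, by rw [← Nat.card_eq_fintype_card]; exact ha⟩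
  have hΓ1 := h681_gKappa_of_d_eq_one p N₀ qq
  obtain ⟨e, he, heV, hVe, hT, -, hD, -⟩ := hV.exists_proj
  obtain ⟨hsurj, hinj'⟩ := Fermat.Agent.S59.TW.Aut.H31.locPart_TK_sub_bij_h31 hV hℓM hmem hu
  have hTK : ∀ (l : ℕ) [Fact l.Prime] (hl : ¬ l ∣ gLevel N₀ qq)
      (x : Additive (kerSub (gKappa p N₀ qq)) →+ 𝒪),
      H587.heckeKerLin hl (gKappa p N₀ qq) hΓ1 𝒪 x = TK (gLevel N₀ qq) (KG p N₀ qq) l x :=
    fun l _ hl x => heckeKer_eq_TK hl (gKappa p N₀ qq) hΓ1 x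
  have hconj : ∀ (g : Gamma0 (gLevel N₀ qq)) (z : Additive (kerSub (gKappa p N₀ qq)) →+ 𝒪),
      conjAct (gKappa p N₀ qq) g z =
        diamondU (isMid_KG p N₀ qq) (dUnit (gLevel N₀ qq) g⁻¹) z := by
    intro g z
    rw [conjAct_eq_diamond (gKappa p N₀ qq) hΓ1 g z, diamond_eq_diamondU]
    rfl
  have het : ∀ x, e (H587.heckeKerLin hℓM (gKappa p N₀ qq) hΓ1 𝒪 x) =
      H587.heckeKerLin hℓM (gKappa p N₀ qq) hΓ1 𝒪 (e x) := fun x =>
    (congrArg e (hTK ℓ hℓM x)).trans ((hT ℓ hℓM x).trans (hTK ℓ hℓM (e x)).symm)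
  have hec : ∀ (g : Gamma0 (gLevel N₀ qq)) x,
      e (conjAct (gKappa p N₀ qq) g x) = conjAct (gKappa p N₀ qq) g (e x) := fun g x => by
    have h1 := hconj g x
    have h2 := hconj g (e x)
    have h3 := hD (dUnit (gLevel N₀ qq) g⁻¹) x
    exact (congrArg e h1).trans (h3.trans h2.symm)
  have hsurj' : ∀ y : Additive (kerSub (gKappa p N₀ qq)) →+ 𝒪, e y = y →
      ∃ x : Additive (kerSub (gKappa p N₀ qq)) →+ 𝒪, e x = x ∧
      H587.heckeKerLin hℓM (gKappa p N₀ qq) hΓ1 𝒪 x - ((ℓ : 𝒪) + 1) • x = y := fun y hy => by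
    have hyV : y ∈ V := by rw [← hy]; exact heV y
    obtain ⟨x, hxV, hx⟩ := hsurj y hyV
    refine ⟨x, hVe x hxV, ?_⟩
    rw [hTK ℓ hℓM x]
    exact hx
  have hinj'' : ∀ x : Additive (kerSub (gKappa p N₀ qq)) →+ 𝒪, e x = x →
      H587.heckeKerLin hℓM (gKappa p N₀ qq) hΓ1 𝒪 x - ((ℓ : 𝒪) + 1) • x = 0 → x = 0 :=
    fun x hx h0 => by
      have hxV : x ∈ V := by rw [← hx]; exact heV x
      rw [hTK ℓ hℓM x] at h0
      exact hinj' x hxV h0
  have hfc : FreeConclusion (gKappa p N₀ qq) 𝒪 e := by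
    rcases hcase with hp5 | ⟨hp3, r', c', hr', hr'M, hr'3, hmem', hc'⟩
    · exact H779.freeFive_heckeKer_h779 p (gLevel N₀ qq) ℓ hp5 hℓM hM.ne (GDelta p qq)
        (gKappa p N₀ qq) hκ hcard hΓ1 𝒪 hp𝒪 e he het hec hsurj' hinj''
    · subst hp3
      have : Fact r'.Prime := ⟨hr'⟩
      have hu0 : IsUnit (c' - 0) := by rwa [sub_zero]
      obtain ⟨hsurjr, -⟩ :=
        Fermat.Agent.S59.TW.Aut.H31.locPart_TK_sub_bij_h31 hV hr'M hmem' hu0
      refine H779.freeAux3_heckeKer_h779 (gLevel N₀ qq) ℓ r' hℓM hr'M hr'3 hM.ne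
        (GDelta 3 qq) (gKappa 3 N₀ qq) hκ hcard hΓ1 𝒪 (by simpa using hp𝒪) e he het hec
        hsurj' hinj''
        (fun x => (congrArg e (hTK r' hr'M x)).trans
          ((hT r' hr'M x).trans (hTK r' hr'M (e x)).symm)) ?_
      intro y hy
      have hyV : y ∈ V := by rw [← hy]; exact heV y
      obtain ⟨x, hxV, hx⟩ := hsurjr y hyV
      rw [zero_smul, sub_zero] at hx
      exact ⟨x, hVe x hxV, (hTK r' hr'M x).trans hx⟩
  obtain ⟨⟨n, b, hb, hfree⟩, -, -⟩ := hfc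
  refine ⟨n, fun E _ a ha => ?_⟩
  choose s hs using hκ
  obtain ⟨hli, hspan⟩ := hfree s hs
  refine ⟨fun i => ⟨b i, by rw [← hb i]; exact heV _⟩, fun y => ?_⟩
  have hε : Function.Bijective
      (fun e' : E => ((QuotientGroup.mk (a e') : GDelta p qq))⁻¹) :=
    (Equiv.inv (GDelta p qq)).bijective.comp ha
  have key := h681_existsUnique_coeff
    (fun z : GDelta p qq × Fin n => conjAct (gKappa p N₀ qq) (s z.1) (b z.2)) hli
    (fun e' : E => ((QuotientGroup.mk (a e') : GDelta p qq))⁻¹) hε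
    (y : Additive (KG p N₀ qq) →+ 𝒪) (hspan _ (hVe _ y.2))
  have hrew : ∀ (e' : E) (i : Fin n),
      conjAct (gKappa p N₀ qq) (s ((QuotientGroup.mk (a e') : GDelta p qq))⁻¹) (b i) =
        diamondU (isMid_KG p N₀ qq) (gLift N₀ qq (a e')) (b i) :=
    fun e' i => (h681_diamondU_gLift_eq_conjAct p N₀ qq hred (a e') _ (hs _) (b i)).symm
  simp only [hrew] at key
  exact key

end Generic

end Fermat.Agent.S38.H681
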