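import Fermat.Agent.S38.IA.Hecke.Spec3
import Fermat.Agent.S59.TW.Aut.H762.CorIdx

/-!
# Row HARD, cell HECKE, leaf IA-FREE: the level structure of a family of primes (helper681)

Generic-index versions (family `qq : ι → ℕ`, `ι` a finite type; vocabulary `gLevel`, `gRed`,
`gChi`, `gKappa`, `GDelta` of `S38/IA/Hecke/Spec3.lean`) of the facts known for `Fin r`-indexed
families (`S59/TW/Aut/SkelLemmas.lean`, `S59/TW/Aut/H762`):

* `h681_gRed_surjective`, `h681_gKappa_surjective` (Chinese remainder theorem);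
* `h681_isPGroup_gDelta`, `h681_card_gDelta` (`Δ` is a finite `p`-group);
* `h681_gKappa_of_d_eq_one` (`κ` is trivial on `{d ≡ 1}`);
* `h681_gEpsIdx_bijective` (the exponent tuples enumerate `Δ`).
-/

set_option autoImplicit false

open CongruenceSubgroup
open scoped MatrixGroups

namespace Fermat.Agent.S38.H681

open Fermat.Agent.S59.TW.H653 Fermat.Agent.S59.TW.Aut Fermat.Agent.S38.IA.Hecke

section G

variable (p N₀ : ℕ) {ι : Type} [Fintype ι] (qq : ι → ℕ)

theorem h681_gRed_apply (u : (ZMod (gLevel N₀ qq))ˣ) (s : ι) :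
    gRed N₀ qq u s = ZMod.unitsMap (dvd_gLevel N₀ qq s) u := rfl

theorem h681_gLevel_ne_zero (hN₀ : N₀ ≠ 0) (hprime : ∀ s, (qq s).Prime) :
    gLevel N₀ qq ≠ 0 :=
  Nat.mul_ne_zero hN₀ (Finset.prod_ne_zero_iff.mpr fun s _ => (hprime s).ne_zero)

/-- `(ℤ/M)ˣ → ∏ (ℤ/qq s)ˣ` is onto. -/
theorem h681_gRed_surjective (hN₀ : N₀ ≠ 0) (hinj : Function.Injective qq)
    (hprime : ∀ s, (qq s).Prime) : Function.Surjective (gRed N₀ qq) := by
  intro a
  have hcop : Pairwise (Function.onFun Nat.Coprime qq) := by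
    intro i j hij
    exact (Nat.coprime_primes (hprime i) (hprime j)).mpr fun h => hij (hinj h)
  have hM : NeZero (gLevel N₀ qq) := ⟨h681_gLevel_ne_zero N₀ qq hN₀ hprime⟩
  have hPM : (∏ s, qq s) ∣ gLevel N₀ qq := Dvd.intro_left _ rfl
  set e := ZMod.prodEquivPi qq hcop with he
  set x : ZMod (∏ s, qq s) := e.symm (fun s => ((a s : (ZMod (qq s))ˣ) : ZMod (qq s))) with hx
  set y : ZMod (∏ s, qq s) := e.symm (fun s => ((a s)⁻¹ : (ZMod (qq s))ˣ)) with hy
  have hxy : x * y = 1 := by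
    rw [hx, hy, ← map_mul]
    have : ((fun s => ((a s : (ZMod (qq s))ˣ) : ZMod (qq s))) *
        fun s => (((a s)⁻¹ : (ZMod (qq s))ˣ) : ZMod (qq s))) = 1 := by
      funext s
      simp
    rw [this, map_one]
  obtain ⟨u, hu⟩ := ZMod.unitsMap_surjective hPM (Units.mkOfMulEqOne x y hxy)
  refine ⟨u, ?_⟩
  funext s
  apply Units.ext
  rw [h681_gRed_apply]
  have h1 : ZMod.unitsMap (dvd_gLevel N₀ qq s) u =
      ZMod.unitsMap (Finset.dvd_prod_of_mem qq (Finset.mem_univ s)) (ZMod.unitsMap hPM u) := by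
    rw [← MonoidHom.comp_apply, ZMod.unitsMap_comp]
  rw [h1, hu]
  show ZMod.castHom (Finset.dvd_prod_of_mem qq (Finset.mem_univ s)) (ZMod (qq s)) x = _
  rw [← ZMod.prodEquivPi_apply qq hcop x s, ← he, hx, RingEquiv.apply_symm_apply]

/-- `gChi` is onto. -/
theorem h681_gChi_surjective (hred : Function.Surjective (gRed N₀ qq)) :
    Function.Surjective (gChi p N₀ qq) := by
  unfold gChi
  exact (QuotientGroup.mk'_surjective _).comp hred

/-- `κ : Γ₀(M) → Δ` is onto. -/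
theorem h681_gKappa_surjective [NeZero (gLevel N₀ qq)]
    (hred : Function.Surjective (gRed N₀ qq)) : Function.Surjective (gKappa p N₀ qq) := by
  unfold gKappa
  exact (h681_gChi_surjective p N₀ qq hred).comp dUnit_surjective

theorem h681_gKappa_apply (g : Gamma0 (gLevel N₀ qq)) :
    gKappa p N₀ qq g = gChi p N₀ qq (dUnit (gLevel N₀ qq) g) := rfl

theorem h681_gChi_apply (u : (ZMod (gLevel N₀ qq))ˣ) :
    gChi p N₀ qq u = QuotientGroup.mk (gRed N₀ qq u) := rfl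

/-- `κ` is trivial on the elements with `d ≡ 1` modulo `M`. -/
theorem h681_gKappa_of_d_eq_one (γ : Gamma0 (gLevel N₀ qq))
    (h : ((((γ : SL(2, ℤ)) 1 1 : ℤ)) : ZMod (gLevel N₀ qq)) = 1) : gKappa p N₀ qq γ = 1 := by
  have h1 : dUnit (gLevel N₀ qq) γ = 1 := by
    apply Units.ext
    rw [coe_dUnit, h, Units.val_one]
  rw [h681_gKappa_apply, h1, map_one]

omit [Fintype ι] in
theorem h681_mem_gPowSub_iff (a : ∀ s : ι, (ZMod (qq s))ˣ) :
    a ∈ gPowSub p qq ↔ ∀ s, ∃ u : (ZMod (qq s))ˣ, u ^ (p ^ padicValNat p (qq s - 1)) = a s := by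
  unfold gPowSub
  rw [Subgroup.mem_pi]
  constructor
  · intro h s
    obtain ⟨u, hu⟩ := h s (Set.mem_univ s)
    exact ⟨u, hu⟩
  · intro h s _
    obtain ⟨u, hu⟩ := h s
    exact ⟨u, hu⟩

/-- `Δ` is a `p`-group. -/
theorem h681_isPGroup_gDelta : IsPGroup p (GDelta p qq) := by
  intro d
  obtain ⟨a, rfl⟩ := QuotientGroup.mk_surjective d
  refine ⟨∑ s, padicValNat p (qq s - 1), ?_⟩
  rw [← QuotientGroup.mk_pow, QuotientGroup.eq_one_iff, h681_mem_gPowSub_iff]
  intro s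
  have hle : padicValNat p (qq s - 1) ≤ ∑ s, padicValNat p (qq s - 1) :=
    Finset.single_le_sum (f := fun s => padicValNat p (qq s - 1)) (fun _ _ => Nat.zero_le _)
      (Finset.mem_univ s)
  refine ⟨a s ^ (p ^ ((∑ s, padicValNat p (qq s - 1)) - padicValNat p (qq s - 1))), ?_⟩
  rw [Pi.pow_apply, ← pow_mul, ← pow_add, Nat.sub_add_cancel hle]

instance h681_finite_gDelta : Finite (GDelta p qq) := inferInstance

/-- `Δ` has `p`-power order. -/
theorem h681_card_gDelta [Fact p.Prime] : ∃ a : ℕ, Nat.card (GDelta p qq) = p ^ a :=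
  IsPGroup.iff_card.mp (h681_isPGroup_gDelta p qq)

/-! ## The exponent tuples enumerate `Δ` -/

/-- The index map `e ↦ class of (g s ^ e s)_s`. -/
def gEpsIdx (g : ∀ s : ι, (ZMod (qq s))ˣ)
    (e : ∀ s : ι, Fin (p ^ padicValNat p (qq s - 1))) : GDelta p qq :=
  QuotientGroup.mk (fun s => g s ^ (e s : ℕ))

theorem h681_gEpsIdx_injective [Fact p.Prime] (hprime : ∀ s, (qq s).Prime)
    (g : ∀ s : ι, (ZMod (qq s))ˣ) (hg : ∀ s, orderOf (g s) = qq s - 1) :
    Function.Injective (gEpsIdx p qq g) := by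
  intro e e' h
  unfold gEpsIdx at h
  rw [QuotientGroup.eq, h681_mem_gPowSub_iff] at h
  funext j
  obtain ⟨u, hu⟩ := h j
  obtain ⟨k, rfl⟩ :=
    Fermat.Agent.S59.TW.Aut.H762.exists_pow_eq_of_orderOf (hprime j) (hg j) u
  have h1 : g j ^ (k * p ^ padicValNat p (qq j - 1) + (e j : ℕ)) = g j ^ (e' j : ℕ) := by
    rw [pow_add, pow_mul, hu]
    simp
  rw [pow_eq_pow_iff_modEq, hg j] at h1
  have hdvd : p ^ padicValNat p (qq j - 1) ∣ qq j - 1 := pow_padicValNat_dvd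
  have h2 : (k * p ^ padicValNat p (qq j - 1) + (e j : ℕ)) ≡ (e' j : ℕ)
      [MOD p ^ padicValNat p (qq j - 1)] := h1.of_dvd hdvd
  have h3 : ((e j : ℕ)) ≡ (e' j : ℕ) [MOD p ^ padicValNat p (qq j - 1)] := by
    have h4 : (k * p ^ padicValNat p (qq j - 1) + (e j : ℕ)) ≡ (e j : ℕ)
        [MOD p ^ padicValNat p (qq j - 1)] := by
      unfold Nat.ModEq
      rw [Nat.mul_add_mod_of_lt (e j).2]
      exact (Nat.mod_eq_of_lt (e j).2).symm
    exact h4.symm.trans h2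
  apply Fin.ext
  unfold Nat.ModEq at h3
  rw [Nat.mod_eq_of_lt (e j).2, Nat.mod_eq_of_lt (e' j).2] at h3
  exact h3

theorem h681_gEpsIdx_surjective [hp : Fact p.Prime] (hprime : ∀ s, (qq s).Prime)
    (g : ∀ s : ι, (ZMod (qq s))ˣ) (hg : ∀ s, orderOf (g s) = qq s - 1) :
    Function.Surjective (gEpsIdx p qq g) := by
  intro d
  obtain ⟨a, rfl⟩ := QuotientGroup.mk_surjective d
  have hk : ∀ j, ∃ k : ℕ, g j ^ k = a j := fun j =>
    Fermat.Agent.S59.TW.Aut.H762.exists_pow_eq_of_orderOf (hprime j) (hg j) (a j)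
  choose k hk using hk
  have hpos : ∀ j, 0 < p ^ padicValNat p (qq j - 1) := fun j => pow_pos hp.out.pos _
  refine ⟨fun j => ⟨k j % p ^ padicValNat p (qq j - 1), Nat.mod_lt _ (hpos j)⟩, ?_⟩
  unfold gEpsIdx
  rw [QuotientGroup.eq, h681_mem_gPowSub_iff]
  intro j
  refine ⟨g j ^ (k j / p ^ padicValNat p (qq j - 1)), ?_⟩
  show _ = ((fun j => g j ^ (k j % p ^ padicValNat p (qq j - 1)))⁻¹ * a) j
  rw [Pi.mul_apply, Pi.inv_apply, ← hk j, ← pow_mul, eq_inv_mul_iff_mul_eq, ← pow_add]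
  congr 1
  rw [mul_comm]
  exact Nat.mod_add_div _ _

theorem h681_gEpsIdx_bijective [Fact p.Prime] (hprime : ∀ s, (qq s).Prime)
    (g : ∀ s : ι, (ZMod (qq s))ˣ) (hg : ∀ s, orderOf (g s) = qq s - 1) :
    Function.Bijective (gEpsIdx p qq g) :=
  ⟨h681_gEpsIdx_injective p qq hprime g hg, h681_gEpsIdx_surjective p qq hprime g hg⟩

end G

end Fermat.Agent.S38.H681
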