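import Fermat.Agent.S38.H681.FreeOdd
import Fermat.Agent.S59.TW.Aut.H31.NonEis
import Fermat.Agent.S59.TW.Aut.H186.AuxPrimePkg
import Fermat.Agent.S59.Arch.WilesLevel

/-!
# IA-FREE for EVERY odd `p` (incl. `p = 3`), every type `t` (helper681)

Cell (B2) of the S59 end-game (Ihara avoidance at `p = 3` and `t = sord`): the leaf IA-FREE of
`S38/IA/Hecke/Spec3.lean` does NOT need `5 ≤ p`.

* `h681_free_of_pkg` (GENERIC: any type `t`, any `Sig`, any package `P`, any base level `N₀ ≠ 0`,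
  any finite family `qq : ι → ℕ` of distinct primes, any `Uset`): a localisation `V` of
  `X_{KG p N₀ qq}(𝒪)` at `(TsetOf P, Uset)` is free over `𝒪[Δ]`.  The non-Eisenstein prime is
  `H31.exists_nonEis_mem_TsetOf`, the auxiliary prime `r ≡ 2 mod 3` at `p = 3` is
  `H186.exists_aux3_tset_h186` (both on main, both for every `t`, `Sig`).
* `iaFreeAt_odd_h681`: the binders of `IAFreeStatement` WITHOUT `5 ≤ p`; conclusion
  `∃ d, IAFreeAt V d` (the family `Sum.elim pv qv`).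
* `iaFree_h681 : IAFreeStatement` (VERBATIM; spare copy of the official `H916.iaFree_h916`).
-/

set_option autoImplicit false

open Polynomial IsLocalRing CongruenceSubgroup
open scoped MatrixGroups

namespace Fermat.Agent.S38.H681

open Fermat.Agent.S59.Arch Fermat.Agent.S59.TW.H959 Fermat.Agent.S59.TW
open Fermat.Agent.S59.TW.H653 Fermat.Agent.S59.TW.Aut
open Fermat.Agent.S38.IA Fermat.Agent.S38.IA.Hecke

section Pkg

variable {p : ℕ} [hpF : Fact p.Prime]
  {𝒪 : Type} [CommRing 𝒪] [IsDomain 𝒪] [IsDiscreteValuationRing 𝒪]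
  [IsAdicComplete (maximalIdeal 𝒪) 𝒪] [Finite (ResidueField 𝒪)] [CharZero 𝒪]
  {ρbar : ResidualGaloisRep (ResidueField 𝒪)} {Smin : Finset ℕ} {t : PType}

/-- **FREE at a package, generic form, all odd `p`, all types `t`.** -/
theorem h681_free_of_pkg (h : ResidualHyp p 𝒪 ρbar Smin) {Sig : Finset ℕ}
    [NeZero (wilesLevel p t Smin Sig)] (P : HeckePkg p 𝒪 ρbar t Smin Sig)
    (N₀ : ℕ) {ι : Type} [Fintype ι] (qq : ι → ℕ)
    (hN₀ : N₀ ≠ 0) (hinj : Function.Injective qq) (hprime : ∀ s, (qq s).Prime)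
    {Uset : Set (ℕ × 𝒪)} {V : Submodule 𝒪 (Additive (KG p N₀ qq) →+ 𝒪)}
    (hV : IsLocPart (isMid_KG p N₀ qq) (TsetOf P) Uset V) :
    ∃ d : ℕ, ∀ (E : Type) [Fintype E] (a : E → ∀ s : ι, (ZMod (qq s))ˣ),
      Function.Bijective (fun e => (QuotientGroup.mk (a e) : GDelta p qq)) →
      ∃ b : Fin d → V, ∀ y : V, ∃! c : Fin d → E → 𝒪,
        (y : Additive (KG p N₀ qq) →+ 𝒪) =
          ∑ i, ∑ e, c i e • diamondU (isMid_KG p N₀ qq) (gLift N₀ qq (a e))
            (b i : Additive (KG p N₀ qq) →+ 𝒪) := by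
  classical
  have hp : p.Prime := hpF.out
  have hM : gLevel N₀ qq ≠ 0 := h681_gLevel_ne_zero N₀ qq hN₀ hprime
  obtain ⟨ℓ, c, hmem, hℓ, hℓS', -, -, hu⟩ :=
    Fermat.Agent.S59.TW.Aut.H31.exists_nonEis_mem_TsetOf h P 1 one_pos
      (gLevel N₀ qq).primeFactors
  have hℓM : ¬ ℓ ∣ gLevel N₀ qq :=
    fun hd => hℓS' (Nat.mem_primeFactors.mpr ⟨hℓ, hd, hM⟩)
  have hp𝒪 : ¬ IsUnit (p : 𝒪) := (mem_maximalIdeal _).mp h.hp𝒪
  have hcase : 5 ≤ p ∨ (p = 3 ∧ ∃ (r' : ℕ) (c' : 𝒪), r'.Prime ∧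
      ¬ r' ∣ gLevel N₀ qq ∧ r' % 3 = 2 ∧ (r', c') ∈ TsetOf P ∧ IsUnit c') := by
    by_cases hp3 : p = 3
    · right
      refine ⟨hp3, ?_⟩
      obtain ⟨r', c', hmem', hr', -, -, hr'S', hr'3, hc'⟩ :=
        Fermat.Agent.S59.TW.Aut.H186.exists_aux3_tset_h186 hp3 h P
          (gLevel N₀ qq).primeFactors
      exact ⟨r', c', hr', fun hd => hr'S' (Nat.mem_primeFactors.mpr ⟨hr', hd, hM⟩), hr'3,
        hmem', hc'⟩
    · left
      have h2 := h.hp2
      have h2le := hp.two_le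
      by_contra hlt
      have hp4 : p = 4 := by omega
      rw [hp4] at hp
      exact absurd hp (by decide)
  exact h681_free_of_isLocPart_odd N₀ qq hN₀ hinj hprime hp𝒪 hV hℓ hℓM hmem hu hcase

end Pkg

/-- The family `Sum.elim pv qv` of the pivots and the Taylor–Wiles primes consists of primes. -/
theorem h681_prime_sumElim {k : Type} [Field k] {p : ℕ} {ρbar : ResidualGaloisRep k}
    {Smin Piv : Finset ℕ} (hPiv : IsPivotSet p ρbar Smin Piv)
    {K r : ℕ} {pv : Fin K → ℕ} (hpvPiv : Finset.univ.image pv = Piv)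
    {n : ℕ} {qv : Fin r → ℕ} (hq : IsTWSet p ρbar (Smin ∪ Piv) n qv) :
    ∀ s, (Sum.elim pv qv s).Prime := by
  rintro (i | j)
  · exact (hPiv (pv i) (by rw [← hpvPiv]; exact Finset.mem_image_of_mem pv (Finset.mem_univ i))).1
  · exact (hq.2.1 j).1

/-- The family `Sum.elim pv qv` of the pivots and the Taylor–Wiles primes is injective. -/
theorem h681_injective_sumElim {k : Type} [Field k] {p : ℕ} {ρbar : ResidualGaloisRep k}
    {Smin Piv : Finset ℕ}
    {K r : ℕ} {pv : Fin K → ℕ} (hpv : Function.Injective pv)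
    (hpvPiv : Finset.univ.image pv = Piv)
    {n : ℕ} {qv : Fin r → ℕ} (hq : IsTWSet p ρbar (Smin ∪ Piv) n qv) :
    Function.Injective (Sum.elim pv qv) := by
  have hpvmem : ∀ i, pv i ∈ Piv := fun i => by
    rw [← hpvPiv]
    exact Finset.mem_image_of_mem pv (Finset.mem_univ i)
  rintro (i | j) (i' | j') hh
  · exact congrArg Sum.inl (hpv hh)
  · exfalso
    have h1 : qv j' ∉ Smin ∪ Piv := (hq.2.1 j').2.1
    apply h1
    rw [Finset.mem_union]
    right
    have h2 : pv i = qv j' := hh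
    rw [← h2]
    exact hpvmem i
  · exfalso
    have h1 : qv j ∉ Smin ∪ Piv := (hq.2.1 j).2.1
    apply h1
    rw [Finset.mem_union]
    right
    have h2 : qv j = pv i' := hh
    rw [h2]
    exact hpvmem i'
  · exact congrArg Sum.inr (hq.1 hh)

/-- **IA-FREE without `5 ≤ p`**: the binders of `IAFreeStatement` minus `_hp5`. -/
theorem iaFreeAt_odd_h681 (p : ℕ) [Fact p.Prime]
    (𝒪 : Type) [CommRing 𝒪] [IsDomain 𝒪] [IsDiscreteValuationRing 𝒪]
    [IsAdicComplete (maximalIdeal 𝒪) 𝒪] [Finite (ResidueField 𝒪)] [CharZero 𝒪]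
    (ρbar : ResidualGaloisRep (ResidueField 𝒪)) (Smin : Finset ℕ)
    (h : ResidualHyp p 𝒪 ρbar Smin)
    (Piv : Finset ℕ) (hPiv : IsPivotSet p ρbar Smin Piv)
    (k : ℕ) (pv : Fin k → ℕ) (hpv : Function.Injective pv)
    (hpvPiv : Finset.univ.image pv = Piv)
    (n r : ℕ) (qv : Fin r → ℕ) (hq : IsTWSet p ρbar (Smin ∪ Piv) n qv)
    [NeZero (wilesLevel p .flat Smin (Smin ∪ Piv ∪ Finset.univ.image qv))]
    (PQ : HeckePkg p 𝒪 ρbar .flat Smin (Smin ∪ Piv ∪ Finset.univ.image qv))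
    (α : Fin r → 𝒪)
    (V : Submodule 𝒪 (XIA p Smin pv qv 𝒪)) (hV : IsIAPart PQ α V) :
    ∃ d : ℕ, IAFreeAt V d := by
  classical
  have hp : p.Prime := Fact.out
  have hN₀ : wilesLevel p .flat Smin Smin ≠ 0 := wilesLevel_ne_zero hp h.hSmin h.hSmin
  have hprime := h681_prime_sumElim hPiv hpvPiv hq
  have hinj := h681_injective_sumElim hpv hpvPiv hq
  obtain ⟨d, hd⟩ := h681_free_of_pkg h PQ (wilesLevel p .flat Smin Smin) (Sum.elim pv qv)
    hN₀ hinj hprime hV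
  refine ⟨d, fun g₁ g₂ hg₁ hg₂ => ?_⟩
  have hg : ∀ s, orderOf (pairU g₁ g₂ s) = Sum.elim pv qv s - 1 := by
    rintro (i | j)
    · exact hg₁ i
    · exact hg₂ j
  let ψ := (Equiv.sumPiEquivProdPi
    (fun s : Fin k ⊕ Fin r => Fin (p ^ padicValNat p (Sum.elim pv qv s - 1)))).symm
  have hbij : Function.Bijective (fun e : (∀ i : Fin k, Fin (p ^ padicValNat p (pv i - 1))) ×
      (∀ j : Fin r, Fin (p ^ padicValNat p (qv j - 1))) =>
      (QuotientGroup.mk (pairU (fun i => g₁ i ^ (e.1 i : ℕ)) (fun j => g₂ j ^ (e.2 j : ℕ))) :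
        GDelta p (Sum.elim pv qv))) := by
    have h1 := (h681_gEpsIdx_bijective p (Sum.elim pv qv) hprime (pairU g₁ g₂) hg).comp
      ψ.bijective
    have h2 : (gEpsIdx p (Sum.elim pv qv) (pairU g₁ g₂)) ∘ ψ =
        (fun e : (∀ i : Fin k, Fin (p ^ padicValNat p (pv i - 1))) ×
          (∀ j : Fin r, Fin (p ^ padicValNat p (qv j - 1))) =>
          (QuotientGroup.mk (pairU (fun i => g₁ i ^ (e.1 i : ℕ))
            (fun j => g₂ j ^ (e.2 j : ℕ))) : GDelta p (Sum.elim pv qv))) := by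
      funext e
      show (QuotientGroup.mk (fun s => pairU g₁ g₂ s ^ ((ψ e s : Fin _) : ℕ)) :
        GDelta p (Sum.elim pv qv)) = _
      congr 1
      funext s
      rcases s with i | j <;> rfl
    rw [← h2]
    exact h1
  exact hd _ _ hbij

/-- **IA-FREE**, verbatim (spare copy; official = `H916.iaFree_h916`). -/
theorem iaFree_h681 : IAFreeStatement := by
  intro p _ _hp5 𝒪 _ _ _ _ _ _ ρbar Smin h _hflat Piv hPiv k pv hpv hpvPiv n r qv hq _ PQ α _hα
    V hV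
  exact iaFreeAt_odd_h681 p 𝒪 ρbar Smin h Piv hPiv k pv hpv hpvPiv n r qv hq PQ α V hV

example : Fermat.Agent.S38.IA.Hecke.IAFreeStatement := iaFree_h681

end Fermat.Agent.S38.H681
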