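import Fermat.Agent.S38.IA.Hecke.Spec3
import Fermat.Agent.S59.TW.Aut.H581.Nontriv
import Fermat.Agent.S59.MFree.H761.FreeAbs

/-!
# Row HARD, cell HECKE, layer 3: leaf IA-NONTRIV (helper681)

`iaNontriv_h681 : IA.Hecke.IANontrivStatement` (VERBATIM, `Hecke/Spec3.lean`): the localisation
`V₀` of `X_{Γ₀(L)}(𝒪)`, `L = ribetLevel p Smin Piv`, at the maximal ideal of `θ₀` is free of
positive rank over `𝒪`.

Route: `V₀` is a submodule of `Hom(Γ₀(L), 𝒪)`, hence finite free over the discrete valuation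
ring `𝒪` (`MFree.H761.finite_free_submodule`); it is nonzero because the character `θ₀` occurs
in `X_{Γ₀(L)}(𝒪)` modulo `𝔪_𝒪` (`S59.TW.Aut.H581.h581_exists_occ`, valid for every level) and
because of the fullness clause of `IsLocPart`.
-/

set_option autoImplicit false

open Polynomial IsLocalRing CongruenceSubgroup
open scoped MatrixGroups

namespace Fermat.Agent.S38.H681

open Fermat.Agent.S59.Arch Fermat.Agent.S59.TW.H959 Fermat.Agent.S59.TW.H653
open Fermat.Agent.S59.TW.Aut Fermat.Agent.S38.IA Fermat.Agent.S38.IA.Hecke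

/-- The primes of Ribet's level lie in `Smin ∪ Piv`. -/
theorem h681_mem_of_dvd_ribetLevel {p : ℕ} {Smin Piv : Finset ℕ}
    (hS : ∀ q ∈ Smin, q.Prime) (hP : ∀ q ∈ Piv, q.Prime) {q : ℕ} (hq : q.Prime)
    (hdvd : q ∣ ribetLevel p Smin Piv) : q ∈ (↑(Smin ∪ Piv) : Set ℕ) := by
  unfold ribetLevel at hdvd
  rw [Finset.mem_coe, Finset.mem_union]
  rcases (Nat.Prime.dvd_mul hq).mp hdvd with h | h
  · obtain ⟨a, ha, hqa⟩ := (Prime.dvd_finsetProd_iff hq.prime _).mp h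
    have ha' : a ∈ Smin := Finset.mem_of_mem_erase ha
    have : q = a := (Nat.prime_dvd_prime_iff_eq hq (hS a ha')).mp hqa
    rw [this]
    exact Or.inl ha'
  · obtain ⟨a, ha, hqa⟩ := (Prime.dvd_finsetProd_iff hq.prime _).mp h
    have : q = a := (Nat.prime_dvd_prime_iff_eq hq (hP a ha)).mp hqa
    rw [this]
    exact Or.inr ha

/-- **Nonvanishing of a localisation at level `Γ₀(N)`** (any level `N`, any residual character
`θ` of the Hecke algebra away from `S ⊇ primes(N)`): a submodule `V₀` which is the localisation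
of `X_{Γ₀(N)}(𝒪)` at the eigen-system `TsetOfθ θ` (no `U`-operators) is nonzero. -/
theorem h681_locPart_ne_bot {N : ℕ} [NeZero N] {S : Set ℕ}
    (hNS : ∀ q : ℕ, q.Prime → q ∣ N → q ∈ S)
    {𝒪 : Type} [CommRing 𝒪] [IsDomain 𝒪] [IsDiscreteValuationRing 𝒪]
    (θ : CuspForm.heckeAlgebra N 2 S →+* ResidueField 𝒪)
    (V₀ : Submodule 𝒪 (Additive (Gamma0 N) →+ 𝒪))
    (hV₀ : IsLocPart (isMid_Gamma0 N) (TsetOfθ θ) ∅ V₀) :
    ∃ v : V₀, v ≠ 0 := by
  classical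
  obtain ⟨x, hx0, hxe⟩ := Fermat.Agent.S59.TW.Aut.H581.h581_exists_occ hNS θ
  obtain ⟨e, -, he_mem, -, -, -, -, hfull⟩ := hV₀.exists_proj
  have hex : e x ≠ 0 := by
    intro h0
    apply hx0
    refine hfull x h0 ?_ ?_
    · intro ℓ _ c hc
      obtain ⟨hℓ, hℓN, hℓS, hres⟩ := hc
      rw [TK_Gamma0 hℓN]
      exact hxe ℓ hℓN hℓS c hres
    · intro q _ α hα
      exact absurd hα (Set.notMem_empty _)
  exact ⟨⟨e x, he_mem x⟩, fun h0 => hex (congrArg Subtype.val h0)⟩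

/-- **IA-NONTRIV** (leaf of `S38/IA/Hecke/Spec3.lean`), verbatim. -/
theorem iaNontriv_h681 : IANontrivStatement := by
  intro p _ _hp5 𝒪 _ _ _ _ _ _ ρbar Smin h _hflat Piv hPiv hL θ₀ _hθ₀ V₀ hV₀
  classical
  have hNS : ∀ q : ℕ, q.Prime → q ∣ ribetLevel p Smin Piv →
      q ∈ (↑(Smin ∪ Piv) : Set ℕ) :=
    fun q hq hdvd => h681_mem_of_dvd_ribetLevel h.hSmin (fun a ha => (hPiv a ha).1) hq hdvd
  obtain ⟨v, hv⟩ := h681_locPart_ne_bot hNS θ₀ V₀ hV₀
  have : (Gamma0 (ribetLevel p Smin Piv)).FiniteIndex :=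
    Subgroup.finiteIndex_of_le (isMid_Gamma0 (ribetLevel p Smin Piv)).ge
  obtain ⟨hfin, hfree⟩ :=
    Fermat.Agent.S59.MFree.H761.finite_free_submodule (O := 𝒪)
      (Gamma0 (ribetLevel p Smin Piv)) V₀
  have hnt : Nontrivial V₀ := nontrivial_of_ne v 0 hv
  have hpos : 0 < Module.finrank 𝒪 V₀ := Module.finrank_pos (R := 𝒪) (M := V₀)
  exact ⟨Module.finrank 𝒪 V₀, hpos, ⟨Module.finBasis 𝒪 V₀⟩⟩

end Fermat.Agent.S38.H681
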