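import Fermat.Agent.S38.H681.IANontriv

/-!
# IA-NONTRIV for EVERY prime `p` (helper681)

Cell (B2) of the S59 end-game: the leaf IA-NONTRIV of `S38/IA/Hecke/Spec3.lean` needs neither
`5 ≤ p` nor flatness at `p`.

* `h681_locPart_free_pos` (GENERIC: any level `N`, any `S ⊇ primes(N)`, any residual character
  `θ`): a localisation of `X_{Γ₀(N)}(𝒪)` at `TsetOfθ θ` is free of positive rank over `𝒪`.
* `iaNontrivAt_odd_h681`: the binders of `IANontrivStatement` WITHOUT `_hp5`, `_hflat`, `_hθ₀`.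
-/

set_option autoImplicit false

open Polynomial IsLocalRing CongruenceSubgroup
open scoped MatrixGroups

namespace Fermat.Agent.S38.H681

open Fermat.Agent.S59.Arch Fermat.Agent.S59.TW.H959 Fermat.Agent.S59.TW.H653
open Fermat.Agent.S59.TW.Aut Fermat.Agent.S38.IA Fermat.Agent.S38.IA.Hecke

/-- **Nonvanishing + freeness of a localisation at level `Γ₀(N)`.** -/
theorem h681_locPart_free_pos {N : ℕ} [NeZero N] {S : Set ℕ}
    (hNS : ∀ q : ℕ, q.Prime → q ∣ N → q ∈ S)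
    {𝒪 : Type} [CommRing 𝒪] [IsDomain 𝒪] [IsDiscreteValuationRing 𝒪]
    (θ : CuspForm.heckeAlgebra N 2 S →+* ResidueField 𝒪)
    (V₀ : Submodule 𝒪 (Additive (Gamma0 N) →+ 𝒪))
    (hV₀ : IsLocPart (isMid_Gamma0 N) (TsetOfθ θ) ∅ V₀) :
    ∃ d : ℕ, 0 < d ∧ Nonempty (Module.Basis (Fin d) 𝒪 V₀) := by
  classical
  obtain ⟨v, hv⟩ := h681_locPart_ne_bot hNS θ V₀ hV₀
  have : (Gamma0 N).FiniteIndex := Subgroup.finiteIndex_of_le (isMid_Gamma0 N).ge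
  obtain ⟨hfin, hfree⟩ :=
    Fermat.Agent.S59.MFree.H761.finite_free_submodule (O := 𝒪) (Gamma0 N) V₀
  have hnt : Nontrivial V₀ := nontrivial_of_ne v 0 hv
  have hpos : 0 < Module.finrank 𝒪 V₀ := Module.finrank_pos (R := 𝒪) (M := V₀)
  exact ⟨Module.finrank 𝒪 V₀, hpos, ⟨Module.finBasis 𝒪 V₀⟩⟩

/-- **IA-NONTRIV without `5 ≤ p`** (and without flatness at `p`). -/
theorem iaNontrivAt_odd_h681 (p : ℕ)
    (𝒪 : Type) [CommRing 𝒪] [IsDomain 𝒪] [IsDiscreteValuationRing 𝒪]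
    [IsAdicComplete (maximalIdeal 𝒪) 𝒪]
    (ρbar : ResidualGaloisRep (ResidueField 𝒪)) (Smin : Finset ℕ)
    (hSmin : ∀ q ∈ Smin, q.Prime)
    (Piv : Finset ℕ) (hPiv : IsPivotSet p ρbar Smin Piv)
    [NeZero (ribetLevel p Smin Piv)]
    (θ₀ : CuspForm.heckeAlgebra (ribetLevel p Smin Piv) 2 (↑(Smin ∪ Piv) : Set ℕ) →+*
      ResidueField 𝒪)
    (V₀ : Submodule 𝒪 (Additive (Gamma0 (ribetLevel p Smin Piv)) →+ 𝒪))
    (hV₀ : IsIAMinPart θ₀ V₀) :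
    ∃ d : ℕ, 0 < d ∧ Nonempty (Module.Basis (Fin d) 𝒪 V₀) :=
  h681_locPart_free_pos
    (fun _ hq hdvd => h681_mem_of_dvd_ribetLevel hSmin (fun a ha => (hPiv a ha).1) hq hdvd)
    θ₀ V₀ hV₀

end Fermat.Agent.S38.H681
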